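import Mathlib
import Fermat.Agent.LT.T7.H298.MatchQCut
import Fermat.Agent.LT.T7.H159.GoodUnitTw

/-!
# Row LT, tower T7, leaf T7.L2Q.1.H1.5.3 `UnitMatchQC298 F` (registry row 2671, helper767)

OFF-MAIN.  ADDITIVE (new names only, suffix `767`).  No hole, nothing assumed.

    unitMatchQC767 (F) : MQ298.UnitMatchQC298 F

verbatim against `LT/T7/H298/MatchQCut.lean` (helper298@076793e90, sha256 74dc2a3c): the
fundamental lemma for the unit element over `ℚ`.  If `T₀ ⊆ T ⊆ S`, the places outside `T₀` are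
unramified in `F` and the levels are `0` there, then the local hypotheses `LocHypQ298` for `T`
give the local hypotheses for `S` with unit components at the new places.

Proof.  At `v ∈ T` nothing changes (a place `w` over `v` lies in `T'`).  At `v ∉ T` the places
over `v` are not in `T'` (a place of `F` lies over ONE place of `ℚ`), the components are the unit
elements and the levels are `0`.  Invariance and finite support: helper159 (`isBiInv_unit159`,
`hasFinSupp_unit159`).  `split`: the convolution of unit elements is the unit element, and a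
valuation preserving isomorphism preserves `GL₂(𝒪)`.  `inert`: the ramification index of the local
extension datum is `1` (evaluate `val_i` at the element of `UnramOut305`), `N w = (N v)^l`
(`T6.InstExtC` for a generator of the Galois group, again with ramification index `1`),
`T6.InstLocalC`, and `T6.FundLemmaC` for the unit (`isBC_unitFn159`).  The archimedean clauses are
unchanged.

The general lemmas are stated for an arbitrary extension `K'/K` of number fields; they do not use
the hypotheses `D.l = 2`, `IsImagQuad F`.  Vendored byte-identical: the closure of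
`MatchQCut.lean` (helper298@076793e90), `T7/H159/GoodUnit.lean`, `GoodUnitTw.lean`
(helper159@77b853c18) on the bytes of record of T6 (helper17).
-/

set_option autoImplicit false
set_option linter.unusedSectionVars false

open AutomorphicForm IsDedekindDomain NumberField MeasureTheory

noncomputable section

namespace Fermat.Agent.LT.T7.H767

open Fermat.Agent.LT.H556 Fermat.Agent.LT.H556.A0 Fermat.Agent.LT.T7 Fermat.Agent.LT.T7.H305
open Fermat.Agent.LT

/-! ## 1. The unit element (one local field) -/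

section Local

variable {k : Type} [Field k] [Valued k T6.Γ₀]

/-- The unit element is the function `unitFn159 ∘ cartan` of helper159. -/
theorem unit305_eq767 :
    (unit305 : GL (Fin 2) k → ℂ) = fun g => H159.unitFn159 (T6.cartan g) := by
  classical
  funext g
  rw [H159.unitFn_apply159]
  rfl

theorem isBiInv_unit767 : T6.IsBiInv (T6.InU 0) (unit305 : GL (Fin 2) k → ℂ) := by
  rw [unit305_eq767]
  exact H159.isBiInv_unit159

theorem hasFinSupp_unit767 : T6.HasFinSupp (T6.InU 0) (unit305 : GL (Fin 2) k → ℂ) := by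
  rw [unit305_eq767]
  exact H159.hasFinSupp_unit159

theorem unit305_of_inU767 {g : GL (Fin 2) k} (h : T6.InU 0 g) : unit305 g = 1 := by
  classical
  show (if T6.InU 0 g then (1 : ℂ) else 0) = 1
  rw [if_pos h]

theorem unit305_of_not_inU767 {g : GL (Fin 2) k} (h : ¬ T6.InU 0 g) : unit305 g = 0 := by
  classical
  show (if T6.InU 0 g then (1 : ℂ) else 0) = 0
  rw [if_neg h]

/-- The convolution of unit elements is the unit element. -/
theorem isConv_unit767 :
    T6.IsConv (T6.InU 0) (unit305 : GL (Fin 2) k → ℂ) unit305 unit305 := by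
  classical
  intro g
  refine ⟨{1}, ?_, ?_, ?_⟩
  · intro h hh h' hh' _
    rw [Finset.mem_singleton] at hh hh'
    rw [hh, hh']
  · intro h hne
    have h1 : unit305 h ≠ 0 := left_ne_zero_of_mul hne
    have hU : T6.InU 0 h := by
      by_contra hn
      exact h1 (unit305_of_not_inU767 hn)
    exact ⟨1, Finset.mem_singleton_self _, h, hU, (one_mul h).symm⟩
  · rw [Finset.sum_singleton, inv_one, one_mul]
    have h1 : T6.InU 0 (1 : GL (Fin 2) k) :=
      H159.inU_zero_of_det159 1 (fun i j => T6.H687.v_one_apply_le_one_h687 i j) (by simp)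
    rw [unit305_of_inU767 h1, one_mul]

/-- The iterated convolution of unit elements is the unit element. -/
theorem isConvProd_unit767 (l : ℕ) (φ : ℕ → GL (Fin 2) k → ℂ) (hφ : ∀ j, φ j = unit305) :
    T6.IsConvProd (T6.InU 0) l φ unit305 := by
  refine ⟨fun _ => unit305, (hφ 0).symm, fun m _ => ?_, rfl⟩
  rw [hφ (m + 1)]
  exact isConv_unit767

end Local

/-! ## 2. Valuation preserving homomorphisms -/

section Map

variable {k k' : Type} [Field k] [Valued k T6.Γ₀] [Field k'] [Valued k' T6.Γ₀]

theorem map_sub_one767 (i : k →+* k') (hi : ∀ x : k, Valued.v (i x) = Valued.v x)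
    (h : GL (Fin 2) k) (a b : Fin 2) :
    Valued.v (((Matrix.GeneralLinearGroup.map i h : GL (Fin 2) k') :
        Matrix (Fin 2) (Fin 2) k') a b - (1 : Matrix (Fin 2) (Fin 2) k') a b)
      = Valued.v ((h : Matrix (Fin 2) (Fin 2) k) a b - (1 : Matrix (Fin 2) (Fin 2) k) a b) := by
  have h1 : ((Matrix.GeneralLinearGroup.map i h : GL (Fin 2) k') :
      Matrix (Fin 2) (Fin 2) k') a b = i ((h : Matrix (Fin 2) (Fin 2) k) a b) := rfl
  have h2 : (1 : Matrix (Fin 2) (Fin 2) k') a b = i ((1 : Matrix (Fin 2) (Fin 2) k) a b) := by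
    rw [Matrix.one_apply, Matrix.one_apply]
    split_ifs
    · rw [map_one]
    · rw [map_zero]
  rw [h1, h2, ← map_sub, hi]

/-- A ring homomorphism which preserves the valuation preserves `U(n)`. -/
theorem inU_map767 (i : k →+* k') (hi : ∀ x : k, Valued.v (i x) = Valued.v x) (n : ℕ)
    (g : GL (Fin 2) k) : T6.InU n (Matrix.GeneralLinearGroup.map i g) ↔ T6.InU n g := by
  have hinv : (Matrix.GeneralLinearGroup.map i g)⁻¹ = Matrix.GeneralLinearGroup.map i g⁻¹ :=
    (map_inv (Matrix.GeneralLinearGroup.map i) g).symm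
  constructor
  · intro h a b
    have := h a b
    rw [hinv, map_sub_one767 i hi, map_sub_one767 i hi] at this
    exact this
  · intro h a b
    rw [hinv, map_sub_one767 i hi, map_sub_one767 i hi]
    exact h a b

theorem unit305_map767 (i : k →+* k') (hi : ∀ x : k, Valued.v (i x) = Valued.v x) :
    (fun g : GL (Fin 2) k => (unit305 (Matrix.GeneralLinearGroup.map i g) : ℂ)) = unit305 := by
  classical
  funext g
  show (if T6.InU 0 (Matrix.GeneralLinearGroup.map i g) then (1 : ℂ) else 0)
    = if T6.InU 0 g then (1 : ℂ) else 0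
  by_cases h : T6.InU 0 g
  · rw [if_pos h, if_pos ((inU_map767 i hi 0 g).2 h)]
  · rw [if_neg h, if_neg (fun h' => h ((inU_map767 i hi 0 g).1 h'))]

end Map

/-! ## 3. Places of `K'` over places of `K` -/

section Global

variable {K K' : Type} [Field K] [NumberField K] [Field K'] [NumberField K'] [Algebra K K']

theorem coe_algebraMap767 (x : 𝓞 K) :
    ((algebraMap (𝓞 K) (𝓞 K') x : 𝓞 K') : K') = algebraMap K K' (x : K) := by
  rfl

theorem placeOver_iff767 {v : HeightOneSpectrum (𝓞 K)} {w : HeightOneSpectrum (𝓞 K')}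
    (h : PlaceOver K K' v w) (x : 𝓞 K) :
    x ∈ v.asIdeal ↔ algebraMap (𝓞 K) (𝓞 K') x ∈ w.asIdeal :=
  h x (algebraMap (𝓞 K) (𝓞 K') x) (coe_algebraMap767 x)

/-- A place of `K'` lies over ONE place of `K`. -/
theorem placeOver_unique767 {v v' : HeightOneSpectrum (𝓞 K)} {w : HeightOneSpectrum (𝓞 K')}
    (h : PlaceOver K K' v w) (h' : PlaceOver K K' v' w) : v = v' := by
  apply HeightOneSpectrum.ext
  ext x
  rw [placeOver_iff767 h, placeOver_iff767 h']

/-- `PlaceOver` from the inclusion `v ⊆ w ∩ 𝓞_K`. -/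
theorem placeOver_of_le767 {v : HeightOneSpectrum (𝓞 K)} {w : HeightOneSpectrum (𝓞 K')}
    (h : ∀ x : 𝓞 K, x ∈ v.asIdeal → algebraMap (𝓞 K) (𝓞 K') x ∈ w.asIdeal) :
    PlaceOver K K' v w := by
  intro x y hy
  have hyx : y = algebraMap (𝓞 K) (𝓞 K') x := by
    apply RingOfIntegers.ext
    rw [hy, coe_algebraMap767]
  rw [hyx]
  refine ⟨h x, fun hx => ?_⟩
  by_contra hxv
  have hmax : v.asIdeal.IsMaximal := v.isMaximal
  obtain ⟨a, b, hb, hab⟩ := hmax.exists_inv hxv
  have h1 : algebraMap (𝓞 K) (𝓞 K') (a * x + b) ∈ w.asIdeal := by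
    rw [map_add, map_mul]
    exact w.asIdeal.add_mem (w.asIdeal.mul_mem_left _ hx) (h b hb)
  rw [hab, map_one] at h1
  exact w.isPrime.ne_top ((Ideal.eq_top_iff_one _).2 h1)

theorem val_int767 (v : HeightOneSpectrum (𝓞 K)) (x : 𝓞 K) :
    Valued.v (algebraMap K (v.adicCompletion K) (x : K)) = v.intValuation x := by
  have h1 : (algebraMap K (v.adicCompletion K) (x : K)) = ((x : K) : v.adicCompletion K) := rfl
  rw [h1, HeightOneSpectrum.valuedAdicCompletion_eq_valuation']
  exact HeightOneSpectrum.valuation_of_algebraMap v x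

theorem exp_pow767 (e : ℕ) : (WithZero.exp (-1 : ℤ)) ^ e = WithZero.exp (-(e : ℤ)) := by
  rw [← WithZero.exp_nsmul]
  simp

/-- The ramification index of a local extension datum at an unramified place is `1`. -/
theorem ramIdx_eq_one767 {v : HeightOneSpectrum (𝓞 K)} {w : HeightOneSpectrum (𝓞 K')}
    (hun : ∃ x : 𝓞 K, x ∈ v.asIdeal ∧ algebraMap (𝓞 K) (𝓞 K') x ∉ w.asIdeal ^ 2)
    {l e : ℕ} {i : v.adicCompletion K →+* w.adicCompletion K'}
    {sw : w.adicCompletion K' ≃+* w.adicCompletion K'}
    (hi : ∀ x : K, i (algebraMap K (v.adicCompletion K) x)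
      = algebraMap K' (w.adicCompletion K') (algebraMap K K' x))
    (hext : T6.IsLocalExt (v.adicCompletion K) (w.adicCompletion K') l e i sw) : e = 1 := by
  obtain ⟨x, hxv, hxw⟩ := hun
  have ha : Valued.v (algebraMap K (v.adicCompletion K) (x : K)) ≤ WithZero.exp (-1 : ℤ) := by
    rw [val_int767]
    have := (v.intValuation_le_pow_iff_mem x 1).2 (by rw [pow_one]; exact hxv)
    simpa using this
  have hb : ¬ Valued.v (algebraMap K' (w.adicCompletion K') (algebraMap K K' (x : K)))
      ≤ WithZero.exp (-2 : ℤ) := by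
    rw [← coe_algebraMap767, val_int767]
    intro h
    exact hxw ((w.intValuation_le_pow_iff_mem _ 2).1 (by simpa using h))
  have hval := hext.val_i (algebraMap K (v.adicCompletion K) (x : K))
  rw [hi] at hval
  by_contra hne
  have he2 : 2 ≤ e := by
    have := hext.e_pos
    omega
  apply hb
  rw [hval]
  calc Valued.v (algebraMap K (v.adicCompletion K) (x : K)) ^ e
      ≤ (WithZero.exp (-1 : ℤ)) ^ e := pow_le_pow_left' ha e
    _ = WithZero.exp (-(e : ℤ)) := exp_pow767 e
    _ ≤ WithZero.exp (-2 : ℤ) := WithZero.exp_le_exp.2 (by omega)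

/-- The Galois group of a Galois extension of prime degree has a generator. -/
theorem exists_gen767 {ℓ : ℕ} (h : IsCycExt K K' ℓ) :
    ∃ s : K' ≃ₐ[K] K', ∀ t : K' ≃ₐ[K] K', t ∈ Subgroup.zpowers s := by
  have := h.galois
  have : Fact ℓ.Prime := ⟨h.prime⟩
  have : FiniteDimensional K K' :=
    Module.finite_of_finrank_pos (by rw [h.degree]; exact h.prime.pos)
  have hcard : Nat.card (K' ≃ₐ[K] K') = ℓ := by
    rw [IsGalois.card_aut_eq_finrank, h.degree]
  have : IsCyclic (K' ≃ₐ[K] K') := isCyclic_of_prime_card hcard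
  exact IsCyclic.exists_generator

/-- The norm of the only place over an unramified place `v` is `(N v)^ℓ`. -/
theorem absNorm_over767 (hExt : T6.InstExtC) {ℓ : ℕ} (hcyc : IsCycExt K K' ℓ)
    {v : HeightOneSpectrum (𝓞 K)} {w : HeightOneSpectrum (𝓞 K')} (hvw : PlaceOver K K' v w)
    (huniq : ∀ w' : HeightOneSpectrum (𝓞 K'), PlaceOver K K' v w' → w' = w)
    (hun : ∃ x : 𝓞 K, x ∈ v.asIdeal ∧ algebraMap (𝓞 K) (𝓞 K') x ∉ w.asIdeal ^ 2) :
    Ideal.absNorm w.asIdeal = Ideal.absNorm v.asIdeal ^ ℓ := by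
  obtain ⟨s, hs⟩ := exists_gen767 hcyc
  have := hcyc.galois
  have hp : (Module.finrank K K').Prime := by
    rw [hcyc.degree]
    exact hcyc.prime
  obtain ⟨e, i, sw, hi, _, hext, hN⟩ := hExt K K' s hs hp v w (placeOver_iff767 hvw)
    (fun w' hw' => huniq w' (placeOver_of_le767 hw'))
  have he := ramIdx_eq_one767 hun hi hext
  rw [hN, he, Nat.div_one, hcyc.degree]

theorem ext305_of_mem767 {T : Finset (HeightOneSpectrum (𝓞 K))}
    {f₀ : ∀ v : HeightOneSpectrum (𝓞 K), GL (Fin 2) (v.adicCompletion K) → ℂ}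
    {v : HeightOneSpectrum (𝓞 K)} (h : v ∈ T) : ext305 T f₀ v = f₀ v := by
  delta ext305
  exact if_pos h

theorem ext305_of_not_mem767 {T : Finset (HeightOneSpectrum (𝓞 K))}
    {f₀ : ∀ v : HeightOneSpectrum (𝓞 K), GL (Fin 2) (v.adicCompletion K) → ℂ}
    {v : HeightOneSpectrum (𝓞 K)} (h : v ∉ T) : ext305 T f₀ v = unit305 := by
  delta ext305
  exact if_neg h

end Global

/-! ## 4. The leaf -/

/-- **LEAF Q2.7.11 = UNIT-MATCH over `ℚ`**, closed. -/
theorem unitMatchQC767 (F : Type) [Field F] [NumberField F] : MQ298.UnitMatchQC298 F := by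
  classical
  intro hT6 _ D _ hcyc _ μr _ μc _ T₀ hun n m hlev T S T' S' hT₀T _ hTT' _ φ₀ Φ f₀ F0 F1 H
  obtain ⟨-, -, -, -, -, hLoc, hExt, -, -, -, -, -, -, hFL, -⟩ := hT6
  have hupT : ∀ v ∈ T, ∀ w : HeightOneSpectrum (𝓞 F), PlaceOver ℚ F v w →
      ext305 T' φ₀ w = φ₀ w :=
    fun v hv w hvw => ext305_of_mem767 ((hTT' w).2 ⟨v, hv, hvw⟩)
  have hupN : ∀ v : HeightOneSpectrum (𝓞 ℚ), v ∉ T → ∀ w : HeightOneSpectrum (𝓞 F),
      PlaceOver ℚ F v w → ext305 T' φ₀ w = unit305 := by
    intro v hv w hvw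
    apply ext305_of_not_mem767
    intro hw
    obtain ⟨v', hv', hv'w⟩ := (hTT' w).1 hw
    rw [placeOver_unique767 hvw hv'w] at hv
    exact hv hv'
  have hm0 : ∀ v : HeightOneSpectrum (𝓞 ℚ), v ∉ T → m v = 0 :=
    fun v hv => hlev.1 v (fun h => hv (hT₀T h))
  have hn0 : ∀ v : HeightOneSpectrum (𝓞 ℚ), v ∉ T → ∀ w : HeightOneSpectrum (𝓞 F),
      PlaceOver ℚ F v w → n w = 0 :=
    fun v hv w hvw => hlev.2 v w (fun h => hv (hT₀T h)) hvw
  refine ⟨?_, ?_, H.arch_up, H.arch_down0, H.arch_down1, ?_, ?_, H.arch⟩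
  · -- inv_up
    intro v _ w hvw
    by_cases hvT : v ∈ T
    · rw [hupT v hvT w hvw]
      exact H.inv_up v hvT w hvw
    · rw [hupN v hvT w hvw, hn0 v hvT w hvw]
      exact ⟨isBiInv_unit767, hasFinSupp_unit767⟩
  · -- inv_down
    intro v _
    by_cases hvT : v ∈ T
    · rw [ext305_of_mem767 hvT]
      exact H.inv_down v hvT
    · rw [ext305_of_not_mem767 hvT, hm0 v hvT]
      exact ⟨isBiInv_unit767, hasFinSupp_unit767⟩
  · -- inert
    intro v _ w hvw huniq e i sw hi hsw hext
    by_cases hvT : v ∈ T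
    · rw [hupT v hvT w hvw, ext305_of_mem767 hvT]
      exact H.inert v hvT w hvw huniq e i sw hi hsw hext
    · have hunr := hun v (fun h => hvT (hT₀T h)) w hvw
      have he : e = 1 := ramIdx_eq_one767 hunr hi hext
      subst he
      have hN := absNorm_over767 hExt hcyc hvw huniq hunr
      have hk : T6.IsLocalField (v.adicCompletion ℚ) (Ideal.absNorm v.asIdeal) := hLoc ℚ v
      have hk' : T6.IsLocalField (w.adicCompletion F) (Ideal.absNorm v.asIdeal ^ D.l) := by
        rw [← hN]
        exact hLoc F w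
      have e1 : (unit305 : GL (Fin 2) (w.adicCompletion F) → ℂ)
          = fun g => H159.unitFn159 (T6.cartan g) := unit305_eq767
      have e2 : (unit305 : GL (Fin 2) (v.adicCompletion ℚ) → ℂ)
          = fun g => H159.unitFn159 (T6.cartan g) := unit305_eq767
      rw [hupN v hvT w hvw, ext305_of_not_mem767 hvT, hn0 v hvT w hvw, hm0 v hvT, e1, e2]
      refine ⟨fun δ γ c c' hreg hconj hc hc' => ?_, fun γ c' hreg hnn hc' => ?_⟩
      · exact hFL.1 (v.adicCompletion ℚ) (w.adicCompletion F) (Ideal.absNorm v.asIdeal) D.l i sw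
          hk hk' hext hcyc.prime H159.unitFn159 H159.unitFn159 H159.isDominant_unitFn159
          H159.isDominant_unitFn159 (H159.isBC_unitFn159 _ _) δ γ c c' hreg trivial hconj hc hc'
      · exact hFL.2 (v.adicCompletion ℚ) (w.adicCompletion F) (Ideal.absNorm v.asIdeal) D.l i sw
          hk hk' hext hcyc.prime H159.unitFn159 H159.unitFn159 H159.isDominant_unitFn159
          H159.isDominant_unitFn159 (H159.isBC_unitFn159 _ _) γ c' hreg hnn hc'
  · -- split
    intro v _ w i hw hrel hne hi hval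
    by_cases hvT : v ∈ T
    · have h0 := H.split v hvT w i hw hrel hne hi hval
      have e0 : (fun (j : ℕ) (g : GL (Fin 2) (v.adicCompletion ℚ)) => ext305 T' φ₀ (w j)
            (Matrix.GeneralLinearGroup.map ((i j : v.adicCompletion ℚ ≃+* _) :
              v.adicCompletion ℚ →+* (w j).adicCompletion F) g))
          = fun (j : ℕ) (g : GL (Fin 2) (v.adicCompletion ℚ)) => φ₀ (w j)
            (Matrix.GeneralLinearGroup.map ((i j : v.adicCompletion ℚ ≃+* _) :
              v.adicCompletion ℚ →+* (w j).adicCompletion F) g) := by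
        funext j g
        rw [hupT v hvT (w j) (hw j)]
      rw [e0, ext305_of_mem767 hvT]
      exact h0
    · refine ⟨fun j => by rw [hn0 v hvT (w j) (hw j), hm0 v hvT], ?_⟩
      rw [ext305_of_not_mem767 hvT, hm0 v hvT]
      refine isConvProd_unit767 D.l _ (fun j => ?_)
      show (fun g : GL (Fin 2) (v.adicCompletion ℚ) => ext305 T' φ₀ (w j)
        (Matrix.GeneralLinearGroup.map ((i j : v.adicCompletion ℚ ≃+* _) :
          v.adicCompletion ℚ →+* (w j).adicCompletion F) g)) = unit305
      rw [hupN v hvT (w j) (hw j)]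
      exact unit305_map767 _ (fun x => hval j x)

end Fermat.Agent.LT.T7.H767

end
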