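import Mathlib
import Fermat.Agent.LT.T7.H298.MatchQCut2
import Fermat.Agent.LT.T7.H816.UnitGal
import Fermat.Agent.LT.T7.H767.UnitMatchQ

/-!
# Row LT, tower T7, leaf T7.L2Q.1.H1.5.3 `UnitMatchQC298b F`, v2 (registry row 2671, helper767)

OFF-MAIN.  ADDITIVE (new names only, suffix `767`).  No hole, nothing assumed.

    unitMatchQC767b (F) : MQ298.UnitMatchQC298b F

verbatim against `LT/T7/H298/MatchQCut2.lean` (helper298@0dd88c71f): the fundamental lemma for the
unit element over `ℚ` for the local hypotheses `LocHypQ298b` (split clause for ONE enumeration).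

Proof.  `inv_up`, `inv_down`, `inert`, the archimedean clauses: as for v1 (`unitMatchQC767`,
`UnitMatchQ.lean`).  `split` at `v ∈ T`: the enumeration of the hypothesis.  `split` at a new place
`v ∈ S \ T` with two places over it: the enumeration `w j = σ^{-j} w₁` of helper816
(`T7/H816/UnitGal.lean`: `enum816`, `enum_over816`, `enum_rel816`, `enum_ne816`,
`absNorm_eq_of_split816`) and the identifications of `T6.InstSplitC` (`v` is unramified); the
levels are `0`, the components are unit elements, `unit ∘ i_j = unit`, and the convolution of unit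
elements is the unit element.

Vendored byte-identical: the closure of `MatchQCut2.lean` (helper298@0dd88c71f),
`T7/H816/UnitGal.lean` (helper816@1a191fbef, sha256 8a7fc734), helper159 `GoodUnit(Tw).lean`.
-/

set_option autoImplicit false
set_option linter.unusedSectionVars false

open AutomorphicForm IsDedekindDomain NumberField MeasureTheory

noncomputable section

namespace Fermat.Agent.LT.T7.H767

open Fermat.Agent.LT.H556 Fermat.Agent.LT.H556.A0 Fermat.Agent.LT.T7 Fermat.Agent.LT.T7.H305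
open Fermat.Agent.LT

section Global

variable {K K' : Type} [Field K] [NumberField K] [Field K'] [NumberField K'] [Algebra K K']

/-- The enumeration and the identifications at an unramified place with two places over it
(the construction of helper816, `split_new816`, on `UnitGal.lean`). -/
theorem split_new767 (hIS : T6.InstSplitC) (D : CompData K K') (hD : IsCompData D)
    (hcyc : IsCycExt K K' D.l) {v : HeightOneSpectrum (𝓞 K)}
    (hun : ∀ w : HeightOneSpectrum (𝓞 K'), PlaceOver K K' v w →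
      ∃ x : 𝓞 K, x ∈ v.asIdeal ∧ algebraMap (𝓞 K) (𝓞 K') x ∉ w.asIdeal ^ 2)
    (h2 : ∃ w₁ w₂ : HeightOneSpectrum (𝓞 K'),
      PlaceOver K K' v w₁ ∧ PlaceOver K K' v w₂ ∧ w₁ ≠ w₂) :
    ∃ (w : ℕ → HeightOneSpectrum (𝓞 K'))
      (i : ∀ j : ℕ, v.adicCompletion K ≃+* (w j).adicCompletion K'),
      (∀ j : ℕ, PlaceOver K K' v (w j)) ∧ (∀ j : ℕ, T5.PlaceRel D.s (w (j + 1)) (w j)) ∧
      (∀ j : ℕ, 0 < j → j < D.l → w j ≠ w 0) ∧
      (∀ (j : ℕ) (x : K), i j (algebraMap K (v.adicCompletion K) x)
        = algebraMap K' ((w j).adicCompletion K') (algebraMap K K' x)) ∧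
      (∀ (j : ℕ) (x : v.adicCompletion K), Valued.v (i j x) = Valued.v x) := by
  obtain ⟨w₁, w₂, h1, h2', h12⟩ := h2
  have := hcyc.galois
  have hC : H816U.CycHyp816 K D.s.σ D.l :=
    H816U.cycHyp_of816 D.s D.l D.k hD.cyc hD.base hcyc.prime
  have hover : ∀ j : ℕ, PlaceOver K K' v (H816U.enum816 D.s.σ w₁ j) :=
    H816U.enum_over816 hC h1
  have hex : ∀ j : ℕ,
      ∃ i : v.adicCompletion K ≃+* (H816U.enum816 D.s.σ w₁ j).adicCompletion K',
      (∀ x : K, i (algebraMap K (v.adicCompletion K) x)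
        = algebraMap K' ((H816U.enum816 D.s.σ w₁ j).adicCompletion K') (algebraMap K K' x)) ∧
      ∀ x : v.adicCompletion K, Valued.v (i x) = Valued.v x := fun j =>
    hIS K K' v (H816U.enum816 D.s.σ w₁ j) (placeOver_iff767 (hover j))
      (H816U.absNorm_eq_of_split816 hcyc (hover j) h1 h2' h12) (hun _ (hover j))
  choose i hi hval using hex
  exact ⟨H816U.enum816 D.s.σ w₁, i, hover, H816U.enum_rel816 D.s w₁,
    fun j hj0 hjl => H816U.enum_ne816 hC hcyc.degree h1 h1 h2' h12 j hj0 hjl, hi, hval⟩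

end Global

/-- **LEAF Q2.7.11 = UNIT-MATCH over `ℚ`, v2** (`LocHypQ298b`), closed. -/
theorem unitMatchQC767b (F : Type) [Field F] [NumberField F] : MQ298.UnitMatchQC298b F := by
  classical
  intro hT6 _ D hD hcyc _ μr _ μc _ T₀ hun n m hlev T S T' S' hT₀T _ hTT' _ φ₀ Φ f₀ F0 F1 H
  obtain ⟨-, -, -, -, -, hLoc, hExt, hIS, -, -, -, -, -, hFL, -⟩ := hT6
  have hupT : ∀ v ∈ T, ∀ w : HeightOneSpectrum (𝓞 F), PlaceOver ℚ F v w →
      ext305 T' φ₀ w = φ₀ w :=
    fun v hv w hvw => ext305_of_mem767 ((hTT' w).2 ⟨v, hv, hvw⟩)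
  have hupN : ∀ v : HeightOneSpectrum (𝓞 ℚ), v ∉ T → ∀ w : HeightOneSpectrum (𝓞 F),
      PlaceOver ℚ F v w → ext305 T' φ₀ w = unit305 := by
    intro v hv w hvw
    apply ext305_of_not_mem767
    intro hw
    obtain ⟨v', hv', hv'w⟩ := (hTT' w).1 hw
    rw [placeOver_unique767 hvw hv'w] at hv
    exact hv hv'
  have hm0 : ∀ v : HeightOneSpectrum (𝓞 ℚ), v ∉ T → m v = 0 :=
    fun v hv => hlev.1 v (fun h => hv (hT₀T h))
  have hn0 : ∀ v : HeightOneSpectrum (𝓞 ℚ), v ∉ T → ∀ w : HeightOneSpectrum (𝓞 F),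
      PlaceOver ℚ F v w → n w = 0 :=
    fun v hv w hvw => hlev.2 v w (fun h => hv (hT₀T h)) hvw
  refine ⟨?_, ?_, H.arch_up, H.arch_down0, H.arch_down1, ?_, ?_, H.arch⟩
  · -- inv_up
    intro v _ w hvw
    by_cases hvT : v ∈ T
    · rw [hupT v hvT w hvw]
      exact H.inv_up v hvT w hvw
    · rw [hupN v hvT w hvw, hn0 v hvT w hvw]
      exact ⟨isBiInv_unit767, hasFinSupp_unit767⟩
  · -- inv_down
    intro v _
    by_cases hvT : v ∈ T
    · rw [ext305_of_mem767 hvT]
      exact H.inv_down v hvT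
    · rw [ext305_of_not_mem767 hvT, hm0 v hvT]
      exact ⟨isBiInv_unit767, hasFinSupp_unit767⟩
  · -- inert
    intro v _ w hvw huniq e i sw hi hsw hext
    by_cases hvT : v ∈ T
    · rw [hupT v hvT w hvw, ext305_of_mem767 hvT]
      exact H.inert v hvT w hvw huniq e i sw hi hsw hext
    · have hunr := hun v (fun h => hvT (hT₀T h)) w hvw
      have he : e = 1 := ramIdx_eq_one767 hunr hi hext
      subst he
      have hN := absNorm_over767 hExt hcyc hvw huniq hunr
      have hk : T6.IsLocalField (v.adicCompletion ℚ) (Ideal.absNorm v.asIdeal) := hLoc ℚ v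
      have hk' : T6.IsLocalField (w.adicCompletion F) (Ideal.absNorm v.asIdeal ^ D.l) := by
        rw [← hN]
        exact hLoc F w
      have e1 : (unit305 : GL (Fin 2) (w.adicCompletion F) → ℂ)
          = fun g => H159.unitFn159 (T6.cartan g) := unit305_eq767
      have e2 : (unit305 : GL (Fin 2) (v.adicCompletion ℚ) → ℂ)
          = fun g => H159.unitFn159 (T6.cartan g) := unit305_eq767
      rw [hupN v hvT w hvw, ext305_of_not_mem767 hvT, hn0 v hvT w hvw, hm0 v hvT, e1, e2]
      refine ⟨fun δ γ c c' hreg hconj hc hc' => ?_, fun γ c' hreg hnn hc' => ?_⟩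
      · exact hFL.1 (v.adicCompletion ℚ) (w.adicCompletion F) (Ideal.absNorm v.asIdeal) D.l i sw
          hk hk' hext hcyc.prime H159.unitFn159 H159.unitFn159 H159.isDominant_unitFn159
          H159.isDominant_unitFn159 (H159.isBC_unitFn159 _ _) δ γ c c' hreg trivial hconj hc hc'
      · exact hFL.2 (v.adicCompletion ℚ) (w.adicCompletion F) (Ideal.absNorm v.asIdeal) D.l i sw
          hk hk' hext hcyc.prime H159.unitFn159 H159.unitFn159 H159.isDominant_unitFn159
          H159.isDominant_unitFn159 (H159.isBC_unitFn159 _ _) γ c' hreg hnn hc'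
  · -- split
    intro v _ h2
    by_cases hvT : v ∈ T
    · obtain ⟨w, i, h_over, h_rel, h_ne, h_i, h_val, h_n, h_conv⟩ := H.split v hvT h2
      refine ⟨w, i, h_over, h_rel, h_ne, h_i, h_val, h_n, ?_⟩
      have e0 : (fun (j : ℕ) (g : GL (Fin 2) (v.adicCompletion ℚ)) => ext305 T' φ₀ (w j)
            (Matrix.GeneralLinearGroup.map ((i j : v.adicCompletion ℚ ≃+* _) :
              v.adicCompletion ℚ →+* (w j).adicCompletion F) g))
          = fun (j : ℕ) (g : GL (Fin 2) (v.adicCompletion ℚ)) => φ₀ (w j)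
            (Matrix.GeneralLinearGroup.map ((i j : v.adicCompletion ℚ ≃+* _) :
              v.adicCompletion ℚ →+* (w j).adicCompletion F) g) := by
        funext j g
        rw [hupT v hvT (w j) (h_over j)]
      rw [e0, ext305_of_mem767 hvT]
      exact h_conv
    · obtain ⟨w, i, h_over, h_rel, h_ne, h_i, h_val⟩ :=
        split_new767 hIS D hD hcyc (hun v (fun h => hvT (hT₀T h))) h2
      refine ⟨w, i, h_over, h_rel, h_ne, h_i, h_val,
        fun j => by rw [hn0 v hvT (w j) (h_over j), hm0 v hvT], ?_⟩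
      rw [ext305_of_not_mem767 hvT, hm0 v hvT]
      refine isConvProd_unit767 D.l _ (fun j => ?_)
      show (fun g : GL (Fin 2) (v.adicCompletion ℚ) => ext305 T' φ₀ (w j)
        (Matrix.GeneralLinearGroup.map ((i j : v.adicCompletion ℚ ≃+* _) :
          v.adicCompletion ℚ →+* (w j).adicCompletion F) g)) = unit305
      rw [hupN v hvT (w j) (h_over j)]
      exact unit305_map767 _ (fun x => h_val j x)

end Fermat.Agent.LT.T7.H767

end
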